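/-
DS (S48) / GEO last mile / brick GEO-FIN-OS (helper92): **open stabilisers** for the Galois action on
the places, divisors and divisor classes of `ℚ̄ · F₀`, for ANY rational function field
`F₀ ⊆ ℚ((q))` containing `j(q)` whose base change to `ℚ̄` has `j` as a transcendental generator.

Twin of `ES/GAL/OpenStab12` §Modular (lines 164-251) with `modularFunctionFieldFull N` replaced by an
arbitrary `F₀` (the generic part of that file — `HasLevel`, `smul_place_eq`, ... — is imported as is).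
Covers both vocabularies of the GEO chapters:
* `LevelData` (`L.F₀`, `JL L`)        : section `Level`;
* `GenData`   (`D.FQ`, `Pic0 ℚ̄ D.Fbar`) : section `Gen`.

Main results (`F := laurentBaseChange ℚ̄ F₀`, `J := Pic0 ℚ̄ F`, Prelude's Galois action):
* `hasLevel_elt F₀ b`, `hasLevel_place F₀ hx hfix P`, `hasLevel_divisor`, `hasLevel_pic0`,
  `hasLevel_finite`, `hasLevel_torsion`;
* `exists_level_torsion F₀ hj hgen n hfin` : the literal hypothesis `hlevel` of
  `DS/Geo/TateOfTorsion.tateDataOfTorsion` / of `GeoInputs.finiteLevel`: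
  `∃ L, FiniteDimensional ℚ L ∧ ∀ σ, (∀ a ∈ L, σ a = a) → ∀ y : J, n • y = 0 → σ • y = y`.
-/
import Mathlib
import Fermat.Agent.ES.GAL.OpenStab12
import Fermat.Agent.DS.G.Level
import Fermat.Agent.DS.G.ES.RED.Iface

set_option autoImplicit false
set_option synthInstance.maxHeartbeats 400000
set_option linter.unusedSectionVars false
set_option linter.style.haveILetI false

noncomputable section

open AlgebraicCurve ModularCurve IntermediateField

namespace Fermat.Agent.DS.G.ES.GAL.OpenStab12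

open Fermat.Agent.X0.FF Fermat.Agent.ES.RED.SpecialFibre13 Fermat.Agent.ES.RED.PlaceValue13
open Fermat.Agent.ES.GAL.OpenStab12

/-- `ℚbar`. -/
local notation "Qb" => AlgebraicClosure ℚ

attribute [local instance] isAlgebraic_qb

section Generic

variable (F₀ : IntermediateField ℚ (LaurentSeries ℚ))

/-- every element of `ℚ̄ · F₀` is fixed by an open subgroup. -/
theorem hasLevel_elt (b : laurentBaseChange Qb F₀) :
    HasLevel (fun σ => arithmeticGalois F₀ σ • b = b) := by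
  obtain ⟨L, -, hL, b', -, hb'⟩ :=
    Fermat.Agent.RED.DESC.CoeffDescent1.exists_finite_descent (L := Qb) (F₀ := F₀) ⊥ b.2
  refine ⟨L, hL, fun σ hσ => Subtype.ext ?_⟩
  rw [coe_arithmeticGalois_smul, ← hb', coeffMap_coeffMap]
  refine coeffMap_congr (RingHom.ext fun a => ?_) b'
  exact hσ _ a.2

/-- the formal `j` as an element of `ℚ̄ · F₀`. -/
def jBar (hj : ModularCurve.jq ∈ F₀) : laurentBaseChange Qb F₀ :=
  ⟨coeffEmb Qb ModularCurve.jq, coeffEmb_mem_laurentBaseChange Qb hj⟩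

/-- the image of a rational series is fixed by the whole Galois group. -/
theorem arithmeticGalois_smul_coeffEmb (σ : Qb ≃ₐ[ℚ] Qb) {z : LaurentSeries ℚ} (hz : z ∈ F₀) :
    arithmeticGalois F₀ σ •
        (⟨coeffEmb Qb z, coeffEmb_mem_laurentBaseChange Qb hz⟩ : laurentBaseChange Qb F₀) =
      ⟨coeffEmb Qb z, coeffEmb_mem_laurentBaseChange Qb hz⟩ := by
  apply Subtype.ext
  rw [coe_arithmeticGalois_smul]
  exact coeffMap_coeffEmb σ _

/-- the formal `j` is fixed by the whole Galois group. -/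
theorem arithmeticGalois_smul_jBar (hj : ModularCurve.jq ∈ F₀) (σ : Qb ≃ₐ[ℚ] Qb) :
    arithmeticGalois F₀ σ • jBar F₀ hj = jBar F₀ hj :=
  arithmeticGalois_smul_coeffEmb F₀ σ hj

variable {F₀}

/-- **every place of `ℚ̄ · F₀` is fixed by an open subgroup of `Gal(ℚ̄/ℚ)`**, as soon as the field
has a Galois-fixed transcendental generator `x₀`. -/
theorem hasLevel_place {x₀ : laurentBaseChange Qb F₀} (hx₀ : IsGen Qb x₀)
    (hfix : ∀ σ : Qb ≃ₐ[ℚ] Qb, arithmeticGalois F₀ σ • x₀ = x₀)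
    (P : Place Qb (laurentBaseChange Qb F₀)) :
    HasLevel (fun σ => arithmeticGalois F₀ σ • P = P) := by
  -- a Galois-fixed generator in the valuation ring of `P`
  obtain ⟨x, hx, hgx, hP⟩ : ∃ x : laurentBaseChange Qb F₀, IsGen Qb x ∧
      (∀ σ : Qb ≃ₐ[ℚ] Qb, arithmeticGalois F₀ σ • x = x) ∧
      x ∈ P.toValuationSubring := by
    rcases mem_or_inv_mem (x := x₀) P with h | h
    · exact ⟨_, hx₀, hfix, h⟩
    · refine ⟨_, isGen_inv hx₀, fun σ => ?_, h⟩
      rw [smul_inv'', hfix]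
  haveI := finite_intRing hx
  obtain ⟨S, hS⟩ := (Module.finite_def.1 (finite_intRing hx) :
    (⊤ : Submodule (polyRing Qb x) (intRing Qb x)).FG)
  have h1 := hasLevel_forall_finset S
    (fun b σ => arithmeticGalois F₀ σ • ((b : intRing Qb x) :
      laurentBaseChange Qb F₀) = b) (fun b _ => hasLevel_elt F₀ b)
  have h2 := hasLevel_forall_finset S
    (fun b σ => σ (chartPoint hx P hP b) = chartPoint hx P hP b)
    (fun b _ => hasLevel_const _)
  have h3 := hasLevel_const (chartPoint hx P hP (genB Qb x))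
  refine ((h1.and h2).and h3).mono ?_
  rintro σ ⟨⟨hσ1, hσ2⟩, hσ3⟩
  exact smul_place_eq hx _ (hgx σ) P hP S hS hσ1 hσ3 hσ2

/-- every divisor of `ℚ̄ · F₀` is fixed by an open subgroup. -/
theorem hasLevel_divisor {x₀ : laurentBaseChange Qb F₀} (hx₀ : IsGen Qb x₀)
    (hfix : ∀ σ : Qb ≃ₐ[ℚ] Qb, arithmeticGalois F₀ σ • x₀ = x₀)
    (D : Divisor Qb (laurentBaseChange Qb F₀)) :
    HasLevel (fun σ => arithmeticGalois F₀ σ • D = D) := by
  refine (hasLevel_forall_finset D.support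
    (fun P σ => arithmeticGalois F₀ σ • P = P)
    (fun P _ => hasLevel_place hx₀ hfix P)).mono fun σ hσ => ?_
  rw [SemilinearAut.divisor_smul_def]
  have := Finsupp.mapDomain_congr (v := D)
    (f := (arithmeticGalois F₀ σ • ·)) (g := id) (fun P hP => hσ P hP)
  rw [this, Finsupp.mapDomain_id]

/-- **every point of the Jacobian `Pic⁰(ℚ̄ · F₀)` is fixed by an open subgroup.** -/
theorem hasLevel_pic0 {x₀ : laurentBaseChange Qb F₀} (hx₀ : IsGen Qb x₀)
    (hfix : ∀ σ : Qb ≃ₐ[ℚ] Qb, arithmeticGalois F₀ σ • x₀ = x₀)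
    (y : Pic0 Qb (laurentBaseChange Qb F₀)) : HasLevel (fun σ => σ • y = y) := by
  obtain ⟨D, rfl⟩ := Pic0.mk_surjective y
  refine (hasLevel_divisor hx₀ hfix (D : Divisor Qb (laurentBaseChange Qb F₀))).mono fun σ hσ => ?_
  rw [galois_smul_pic0_def, SemilinearAut.pic0_smul_mk]
  exact congrArg Pic0.mk (Subtype.ext hσ)

/-- a finite set of points of the Jacobian is pointwise fixed by an open subgroup. -/
theorem hasLevel_finite {x₀ : laurentBaseChange Qb F₀} (hx₀ : IsGen Qb x₀)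
    (hfix : ∀ σ : Qb ≃ₐ[ℚ] Qb, arithmeticGalois F₀ σ • x₀ = x₀)
    (T : Set (Pic0 Qb (laurentBaseChange Qb F₀))) (hT : T.Finite) :
    HasLevel (fun σ => ∀ y ∈ T, σ • y = y) := by
  refine (hasLevel_forall_finset hT.toFinset (fun y σ => σ • y = y)
    (fun y _ => hasLevel_pic0 hx₀ hfix y)).mono fun σ hσ y hy => hσ y (hT.mem_toFinset.2 hy)

/-- **if the `n`-torsion of the Jacobian is finite, it is pointwise fixed by an open subgroup.** -/
theorem hasLevel_torsion {x₀ : laurentBaseChange Qb F₀} (hx₀ : IsGen Qb x₀)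
    (hfix : ∀ σ : Qb ≃ₐ[ℚ] Qb, arithmeticGalois F₀ σ • x₀ = x₀) (n : ℕ)
    (hfin : {y : Pic0 Qb (laurentBaseChange Qb F₀) | n • y = 0}.Finite) :
    HasLevel (fun σ => ∀ y : Pic0 Qb (laurentBaseChange Qb F₀), n • y = 0 → σ • y = y) :=
  hasLevel_finite hx₀ hfix _ hfin

/-- **(GEO-FIN-OS)** the literal shape of `hlevel` in `DS/Geo/TateOfTorsion.tateDataOfTorsion`
(⇒ `GeoInputs.finiteLevel`), for `j` as the Galois-fixed generator. -/
theorem exists_level_torsion (hj : ModularCurve.jq ∈ F₀) (hgen : IsGen Qb (jBar F₀ hj)) (n : ℕ)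
    (hfin : {y : Pic0 Qb (laurentBaseChange Qb F₀) | n • y = 0}.Finite) :
    ∃ L : IntermediateField ℚ Qb, FiniteDimensional ℚ L ∧
      ∀ σ : Qb ≃ₐ[ℚ] Qb, (∀ a ∈ L, σ a = a) →
        ∀ y : Pic0 Qb (laurentBaseChange Qb F₀), n • y = 0 → σ • y = y :=
  hasLevel_torsion hgen (arithmeticGalois_smul_jBar F₀ hj) n hfin

/-- the same with the torsion given as a `Finite` subtype (`Pic0.torsion`). -/
theorem exists_level_torsion' (hj : ModularCurve.jq ∈ F₀) (hgen : IsGen Qb (jBar F₀ hj)) (n : ℕ)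
    [Finite (Pic0.torsion Qb (laurentBaseChange Qb F₀) n)] :
    ∃ L : IntermediateField ℚ Qb, FiniteDimensional ℚ L ∧
      ∀ σ : Qb ≃ₐ[ℚ] Qb, (∀ a ∈ L, σ a = a) →
        ∀ y : Pic0.torsion Qb (laurentBaseChange Qb F₀) n,
          σ • (y : Pic0 Qb (laurentBaseChange Qb F₀)) = y := by
  obtain ⟨L, hL, H⟩ := hasLevel_finite hgen (arithmeticGalois_smul_jBar F₀ hj)
    (Set.range (Subtype.val : Pic0.torsion Qb (laurentBaseChange Qb F₀) n →
      Pic0 Qb (laurentBaseChange Qb F₀)))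
    (Set.finite_range _)
  exact ⟨L, hL, fun σ hσ y => H σ hσ y ⟨y, rfl⟩⟩

end Generic

/-! ### the `LevelData` vocabulary (`JL L`) -/

section Level

open Fermat.Agent.DS.G.Level

variable (L : LevelData)

theorem jBar_eq_jFL : jBar L.F₀ L.jq_mem_F₀ = jFL L := rfl

/-- **open stabiliser of the torsion of `J_L`** (`hgen` = helper16's Degree twin `isGen_jF`). -/
theorem exists_level_torsion_JL (hgen : IsGen Qb (jFL L)) (n : ℕ)
    (hfin : {y : JL L | n • y = 0}.Finite) :
    ∃ K : IntermediateField ℚ Qb, FiniteDimensional ℚ K ∧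
      ∀ σ : Qb ≃ₐ[ℚ] Qb, (∀ a ∈ K, σ a = a) → ∀ y : JL L, n • y = 0 → σ • y = y :=
  exists_level_torsion L.jq_mem_F₀ hgen n hfin

/-- every point of `J_L` has an open stabiliser. -/
theorem hasLevel_JL (hgen : IsGen Qb (jFL L)) (y : JL L) : HasLevel (fun σ => σ • y = y) :=
  hasLevel_pic0 (x₀ := jBar L.F₀ L.jq_mem_F₀) hgen (arithmeticGalois_smul_jBar L.F₀ L.jq_mem_F₀) y

end Level

/-! ### the `GenData` vocabulary (`D.FQ`, `D.Fbar`) -/

section Gen

open Fermat.Agent.DS.G.ES.RED.Iface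

variable (D : GenData)

theorem jq_mem_FQ : ModularCurve.jq ∈ D.FQ := by
  have h : jqModC ℚ ∈ D.FC ℚ := D.jqModC_mem_FC
  exact h

/-- **open stabiliser of the torsion of `Pic⁰(D.Fbar)`**. -/
theorem exists_level_torsion_gen (hgen : IsGen Qb (jBar D.FQ (jq_mem_FQ D))) (n : ℕ)
    (hfin : {y : Pic0 Qb D.Fbar | n • y = 0}.Finite) :
    ∃ K : IntermediateField ℚ Qb, FiniteDimensional ℚ K ∧
      ∀ σ : Qb ≃ₐ[ℚ] Qb, (∀ a ∈ K, σ a = a) → ∀ y : Pic0 Qb D.Fbar, n • y = 0 → σ • y = y :=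
  exists_level_torsion (jq_mem_FQ D) hgen n hfin

end Gen

end Fermat.Agent.DS.G.ES.GAL.OpenStab12
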